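import Fermat.Agent.DeRhamCohomology.Cohomology

/-!
# The criterion of Bloch and Kato for extensions of `ℚ_p` by a de Rham representation

The class of a cocycle with values in `V` becomes `x log χ` in `B_dR⁺ ⊗ V`; the extension it
defines is de Rham exactly when `x = 0`. The analogue of the computation over `ℂ_p` is included.
-/

set_option autoImplicit false
set_option linter.unusedSectionVars false

noncomputable section

open Finset FA.TateSen FA.BDR FA.Sen FA.PadicHodge FA.BDRCoh
open scoped Matrix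

namespace FA.DRCoh

variable {p : ℕ} [hp : Fact p.Prime] {d : Type} [Fintype d] [DecidableEq d]

local notation "Cp" => ℂ_[p]
local notation "G" => PadicAlgCl p ≃ₐ[ℚ_[p]] PadicAlgCl p
local notation "ι" => algebraMap (BPlus p) (BField p)

/-- The continuous cocycles with values in `V`. -/
def cocyclesOne (ρ : G → Matrix d d ℚ_[p]) : Submodule ℚ_[p] (G → d → ℚ_[p]) where
  carrier := {c | Continuous c ∧ ∀ σ τ, c (σ * τ) = c σ + ρ σ *ᵥ c τ}
  add_mem' := fun {a b} ha hb => ⟨ha.1.add hb.1, fun σ τ => by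
    simp only [Pi.add_apply, ha.2, hb.2, Matrix.mulVec_add]; abel⟩
  zero_mem' := ⟨continuous_const, fun σ τ => by simp⟩
  smul_mem' := fun r {a} ha => ⟨ha.1.const_smul r, fun σ τ => by
    simp only [Pi.smul_apply, ha.2, smul_add, Matrix.mulVec_smul]⟩

/-- A cocycle with values in `V` gives an invariant in the zeroth step. -/
theorem exists_periodClass {ρ : G → Matrix d d ℚ_[p]} (hρ : IsDeRham ρ)
    (c : cocyclesOne ρ) :
    ∃ x : filDR ρ 0, ∃ y : d → BField p, ∀ σ, (fun i => qpB p ((c : G → d → ℚ_[p]) σ i)) =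
      qpB p (logChi p σ) • (x : d → BField p) + (actB ρ σ y - y) := by
  obtain ⟨U, j, hU⟩ := exists_lattice hρ
  obtain ⟨x, y, hx, hy⟩ := hU.exists_log_add
    (f := fun σ i => qpHom p ((c : G → d → ℚ_[p]) σ i))
    ⟨fun i => contBPlus_qpHom ((continuous_apply i).comp c.2.1), fun σ τ => by
      funext i
      rw [Pi.add_apply, c.2.2 σ τ, Pi.add_apply, map_add, actP, plusRep]
      congr 1
      simp only [Matrix.mulVec, dotProduct, map_sum, map_mul, Matrix.map_apply, smul_qpHom]⟩
  have e : ∀ σ (b : d → BPlus p), actB ρ σ (fun i => ι (b i)) =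
      fun i => ι (actP (plusRep ρ) σ b i) := fun σ b => by
    funext i
    simp only [actB, actP, Matrix.mulVec, dotProduct, Matrix.map_apply, plusRep, map_sum, map_mul,
      smul_algebraMap_bfield, qpB, RingHom.comp_apply]
  refine ⟨⟨fun i => ι (x i), fun σ => by rw [e, hx σ],
    fun i => ⟨x i, by rw [zpow_zero, mul_one]⟩⟩, fun i => ι (y i), fun σ => ?_⟩
  funext i
  have h1 := congrArg ι (congrFun (hy σ) i)
  simp only [Pi.add_apply, Pi.sub_apply, Pi.smul_apply, smul_eq_mul, map_add, map_sub,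
    map_mul] at h1
  simp only [Pi.add_apply, Pi.sub_apply, Pi.smul_apply, smul_eq_mul, e, qpB, RingHom.comp_apply]
  exact h1

/-- The invariant attached to a cocycle. -/
def periodClass {ρ : G → Matrix d d ℚ_[p]} (hρ : IsDeRham ρ) (c : cocyclesOne ρ) :
    filDR ρ 0 :=
  (exists_periodClass hρ c).choose

theorem periodClass_eq {ρ : G → Matrix d d ℚ_[p]} (hρ : IsDeRham ρ) (c : cocyclesOne ρ)
    {x : d → BField p} (hx : x ∈ dR ρ) {y : d → BField p}
    (h : ∀ σ, (fun i => qpB p ((c : G → d → ℚ_[p]) σ i)) =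
      qpB p (logChi p σ) • x + (actB ρ σ y - y)) :
    (periodClass hρ c : d → BField p) = x := by
  obtain ⟨y', hy'⟩ := (exists_periodClass hρ c).choose_spec
  refine sub_eq_zero.1 (eq_zero_of_coboundary_dR hρ (sub_mem (periodClass hρ c).2.1 hx)
    (y := y - y') fun σ => ?_)
  have h1 := (hy' σ).symm.trans (h σ)
  have h2 : actB ρ σ (y - y') = actB ρ σ y - actB ρ σ y' := by
    rw [eq_sub_iff_add_eq, ← actB_add, sub_add_cancel]
  rw [h2]
  funext i
  have h3 := congrFun h1 i
  simp only [periodClass, Pi.add_apply, Pi.sub_apply, Pi.smul_apply, smul_eq_mul] at h3 ⊢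
  linear_combination h3

/-- The linear map to the periods. -/
def periodMap {ρ : G → Matrix d d ℚ_[p]} (hρ : IsDeRham ρ) :
    cocyclesOne ρ →ₗ[ℚ_[p]] filDR ρ 0 where
  toFun := periodClass hρ
  map_add' a b := Subtype.ext (by
    obtain ⟨ya, hya⟩ := (exists_periodClass hρ a).choose_spec
    obtain ⟨yb, hyb⟩ := (exists_periodClass hρ b).choose_spec
    refine periodClass_eq hρ (a + b) (x := (periodClass hρ a + periodClass hρ b : filDR ρ 0))
      (periodClass hρ a + periodClass hρ b).2.1 (y := ya + yb) fun σ => ?_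
    rw [actB_add]
    funext i
    have h1 := congrFun (hya σ) i
    have h2 := congrFun (hyb σ) i
    simp only [periodClass, Submodule.coe_add, Pi.add_apply, Pi.sub_apply, Pi.smul_apply,
      smul_eq_mul, map_add] at h1 h2 ⊢
    linear_combination h1 + h2)
  map_smul' r a := Subtype.ext (by
    obtain ⟨ya, hya⟩ := (exists_periodClass hρ a).choose_spec
    refine periodClass_eq hρ (r • a) (x := (r • periodClass hρ a : filDR ρ 0))
      (r • periodClass hρ a).2.1 (y := qpB p r • ya) fun σ => ?_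
    rw [actB_smul, smul_qpB]
    funext i
    have h1 := congrFun (hya σ) i
    simp only [periodClass, SetLike.val_smul, Pi.add_apply, Pi.sub_apply, Pi.smul_apply,
      smul_eq_mul, qp_smul_def, map_mul] at h1 ⊢
    linear_combination qpB p r * h1)

theorem periodMap_spec {ρ : G → Matrix d d ℚ_[p]} (hρ : IsDeRham ρ) (c : cocyclesOne ρ) :
    ∃ y : d → BField p, ∀ σ, (fun i => qpB p ((c : G → d → ℚ_[p]) σ i)) =
      qpB p (logChi p σ) • (periodMap hρ c : d → BField p) + (actB ρ σ y - y) :=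
  (exists_periodClass hρ c).choose_spec

/-- The extension of `ℚ_p` by `ρ` given by a cocycle. -/
def extRep (ρ : G → Matrix d d ℚ_[p]) (c : G → d → ℚ_[p]) (σ : G) :
    Matrix (d ⊕ Unit) (d ⊕ Unit) ℚ_[p] :=
  Matrix.fromBlocks (ρ σ) (Matrix.of fun i _ => c σ i) 0 1

theorem isQpRep_extRep {ρ : G → Matrix d d ℚ_[p]} (hρ : IsQpRep p d ρ) (c : cocyclesOne ρ) :
    IsQpRep p (d ⊕ Unit) (extRep ρ c) where
  cont := Continuous.matrix_fromBlocks hρ.cont
    (continuous_matrix fun i _ => (continuous_apply i).comp c.2.1) continuous_const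
    continuous_const
  map_one := by
    have h0 : (c : G → d → ℚ_[p]) 1 = 0 := by
      have h1 := c.2.2 1 1
      rw [hρ.map_one, Matrix.one_mulVec, mul_one] at h1
      exact left_eq_add.1 h1
    rw [extRep, hρ.map_one, h0, ← Matrix.fromBlocks_one]
    rfl
  map_mul σ τ := by
    rw [extRep, extRep, extRep, Matrix.fromBlocks_multiply, hρ.map_mul, c.2.2 σ τ]
    congr 1
    · simp
    · ext i u
      simp [Matrix.mul_apply, Matrix.mulVec, dotProduct, add_comm]
    · simp
    · simp

/-- **The criterion of Bloch and Kato.** -/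
theorem isDeRham_extRep_iff {ρ : G → Matrix d d ℚ_[p]} (hρ : IsDeRham ρ) (c : cocyclesOne ρ) :
    IsDeRham (extRep ρ c) ↔ periodMap hρ c = 0 := by
  refine ⟨fun ⟨X, hX⟩ => ?_, fun h => ?_⟩
  · set R : Matrix (d ⊕ Unit) (d ⊕ Unit) (BField p) := X.val
    obtain ⟨k, hk⟩ : ∃ k, R (Sum.inr ()) k ≠ 0 := by
      by_contra! hall
      exact ((Matrix.isUnit_iff_isUnit_det _).1 X.isUnit).ne_zero
        (Matrix.det_eq_zero_of_row_eq_zero (Sum.inr ()) hall)
    have hrow : ∀ σ : G, σ • R (Sum.inr ()) k = R (Sum.inr ()) k := fun σ => by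
      have h1 := congrFun (congrFun (hX σ) (Sum.inr ())) k
      simpa [extRep, Matrix.mul_apply, Fintype.sum_sum_type] using h1
    obtain ⟨a, ha⟩ := (bField_invariants (R (Sum.inr ()) k)).1 hrow
    have ha' : qpB p a = R (Sum.inr ()) k := ha
    set v : d → BField p := fun i => R (Sum.inl i) k * (R (Sum.inr ()) k)⁻¹
    refine Subtype.ext (periodClass_eq hρ c (x := 0) (zero_mem _) (y := -v) fun σ => ?_)
    funext i
    have h1 := congrFun (congrFun (hX σ) (Sum.inl i)) k
    simp only [extRep, Matrix.mul_apply, Fintype.sum_sum_type, Matrix.map_apply,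
      Matrix.fromBlocks_apply₁₁, Matrix.fromBlocks_apply₁₂, Matrix.of_apply,
      univ_unique, sum_singleton, PUnit.default_eq_unit] at h1
    have h2 : ∀ l, σ • (-v) l = -((σ • R (Sum.inl l) k) * (R (Sum.inr ()) k)⁻¹) := fun l => by
      rw [Pi.neg_apply, smul_neg, smul_mul', ← ha', ← map_inv₀, smul_qpB]
    simp only [smul_zero, zero_add, actB, Pi.sub_apply, Matrix.mulVec, dotProduct,
      Matrix.map_apply, h2, mul_neg, sum_neg_distrib, ← mul_assoc, ← sum_mul]
    rw [hrow σ] at h1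
    rw [eq_sub_of_add_eq h1]
    simp only [v, Pi.neg_apply]
    field_simp
    ring
  · obtain ⟨X, hX⟩ := id hρ
    obtain ⟨y, hy⟩ := periodMap_spec hρ c
    rw [h, ZeroMemClass.coe_zero] at hy
    simp only [smul_zero, zero_add] at hy
    set Y : Matrix (d ⊕ Unit) (d ⊕ Unit) (BField p) :=
      Matrix.fromBlocks X (Matrix.of fun i _ => -y i) 0 1 with hY
    obtain ⟨Yu, hYu⟩ : IsUnit Y := Matrix.isUnit_fromBlocks_zero₂₁.2 ⟨X.isUnit, isUnit_one⟩
    have hone : ∀ σ : G, (1 : Matrix Unit Unit (BField p)).map (σ • ·) = 1 := fun σ =>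
      Matrix.map_one (MulSemiringAction.toRingHom G (BField p) σ) (map_zero _) (map_one _)
    refine ⟨Yu, fun σ => ?_⟩
    rw [hYu, hY, extRep]
    simp only [Matrix.fromBlocks_map, Matrix.map_zero _ (map_zero (qpB p)),
      Matrix.map_zero _ (smul_zero σ), Matrix.map_one _ (map_zero (qpB p)) (map_one (qpB p)),
      hone σ, Matrix.fromBlocks_multiply, Matrix.mul_zero,
      Matrix.zero_mul, add_zero, zero_add, Matrix.mul_one, hX σ]
    congr 1
    refine Matrix.ext fun i u => ?_
    have h1 := congrFun (hy σ) i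
    simp only [actB, Pi.sub_apply, Matrix.mulVec, dotProduct, Matrix.map_apply] at h1
    simp only [Matrix.add_apply, Matrix.mul_apply, Matrix.map_apply, Matrix.of_apply, smul_neg,
      mul_neg, sum_neg_distrib]
    linear_combination h1

/-- Coboundaries have no class. -/
theorem periodMap_coboundary {ρ : G → Matrix d d ℚ_[p]} (hρ : IsDeRham ρ) (c : cocyclesOne ρ)
    {v : d → ℚ_[p]} (hc : ∀ σ, (c : G → d → ℚ_[p]) σ = ρ σ *ᵥ v - v) :
    periodMap hρ c = 0 :=
  Subtype.ext (periodClass_eq hρ c (x := 0) (zero_mem _) (y := fun i => qpB p (v i)) fun σ => by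
    funext i
    simp only [smul_zero, zero_add, hc σ, actB, Pi.sub_apply, map_sub, Matrix.mulVec, dotProduct,
      map_sum, map_mul, Matrix.map_apply, smul_qpB])

/-- **The classes of de Rham extensions have finite codimension.** -/
theorem finrank_quotient_ker_le {ρ : G → Matrix d d ℚ_[p]} (hρ : IsDeRham ρ)
    {U : (Matrix d d (BPlus p))ˣ} {j : d → ℤ} (hU : IsLattice p (plusRep ρ) U j) :
    FiniteDimensional ℚ_[p] (cocyclesOne ρ ⧸ LinearMap.ker (periodMap hρ)) ∧
      Module.finrank ℚ_[p] (cocyclesOne ρ ⧸ LinearMap.ker (periodMap hρ)) ≤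
        (univ.filter fun k => j k ≤ 0).card := by
  obtain ⟨hfin, hdim⟩ := finrank_filDR hU 0
  rw [neg_zero] at hdim
  exact ⟨Module.Finite.equiv (periodMap hρ).quotKerEquivRange.symm,
    ((periodMap hρ).quotKerEquivRange.finrank_eq.trans_le (Submodule.finrank_le _)).trans_eq
      hdim⟩

/-- **The classes over `ℂ_p`** of a Hodge–Tate representation. -/
theorem existsUnique_log_add_cp {U : G → Matrix d d Cp} {P : (Matrix d d Cp)ˣ} {j : d → ℤ}
    (hP : ∀ σ, FA.Sen.conj U P σ = Matrix.diagonal fun i => twist p (j i) σ)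
    {f : G → d → Cp} (hc : Continuous f)
    (hf : ∀ σ τ, f (σ * τ) = f σ + U σ *ᵥ fun i => gal σ (f τ i)) :
    ∃! x : d → Cp, x ∈ dHT U 0 ∧ ∃ y : d → Cp, ∀ σ, f σ =
      algebraMap ℚ_[p] Cp (logChi p σ) • x + ((U σ *ᵥ fun i => gal σ (y i)) - y) := by
  classical
  have hact : ∀ σ (z : d → Cp), (U σ *ᵥ fun i => gal σ (((P : Matrix d d Cp) *ᵥ z) i)) =
      (P : Matrix d d Cp) *ᵥ fun k => twist p (j k) σ * gal σ (z k) := fun σ z => by
    have e : (fun i => gal σ (((P : Matrix d d Cp) *ᵥ z) i)) =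
        galM σ (P : Matrix d d Cp) *ᵥ fun i => gal σ (z i) :=
      funext fun i => RingHom.map_mulVec (gal σ) (P : Matrix d d Cp) z i
    rw [e, Matrix.mulVec_mulVec, FA.Sen.conj_eq_iff.1 (hP σ), ← Matrix.mulVec_mulVec]
    congr 1
    funext k
    rw [Matrix.mulVec_diagonal]
  have hsurj : ∀ x : d → Cp, ∃ z, (P : Matrix d d Cp) *ᵥ z = x :=
    fun x => ⟨(↑P⁻¹ : Matrix d d Cp) *ᵥ x, by
      rw [Matrix.mulVec_mulVec, Units.mul_inv, Matrix.one_mulVec]⟩
  have hinj : ∀ {x y : d → Cp}, (P : Matrix d d Cp) *ᵥ x = (P : Matrix d d Cp) *ᵥ y → x = y :=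
    fun h => Matrix.mulVec_injective_iff_isUnit.2 P.isUnit h
  set z : G → d → Cp := fun σ => (↑P⁻¹ : Matrix d d Cp) *ᵥ f σ with hz'
  have hz : ∀ σ, (P : Matrix d d Cp) *ᵥ z σ = f σ := fun σ => by
    rw [hz', Matrix.mulVec_mulVec, Units.mul_inv, Matrix.one_mulVec]
  have hk : ∀ k, IsCocycle p (j k) fun σ => z σ k := fun k =>
    ⟨(continuous_apply k).comp (Continuous.matrix_mulVec continuous_const hc), fun σ τ =>
      congrFun (hinj (show (P : Matrix d d Cp) *ᵥ z (σ * τ) = (P : Matrix d d Cp) *ᵥ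
        (z σ + fun k => twist p (j k) σ * gal σ (z τ k)) by
        rw [Matrix.mulVec_add, hz, hz, ← hact, hz, hf])) k⟩
  have hy : ∀ k, ∃ (c : ℚ_[p]) (y : Cp), (j k ≠ 0 → c = 0) ∧ ∀ σ,
      z σ k = algebraMap ℚ_[p] Cp (c * logChi p σ) + coboundary p (j k) y σ := fun k => by
    by_cases h0 : j k = 0
    · have h1 : IsCocycle p 0 fun σ => z σ k := h0 ▸ hk k
      obtain ⟨c, y, hy⟩ := exists_log_add_coboundary h1
      exact ⟨c, y, fun h => absurd h0 h, fun σ => by rw [hy σ, h0]⟩
    · obtain ⟨y, hy⟩ := exists_coboundary h0 (hk k)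
      exact ⟨0, y, fun _ => rfl, fun σ => by rw [hy σ, zero_mul, map_zero, zero_add]⟩
  choose c y hc0 hy using hy
  refine ⟨(P : Matrix d d Cp) *ᵥ fun k => algebraMap ℚ_[p] Cp (c k),
    ⟨fun σ => ?_, (P : Matrix d d Cp) *ᵥ y, fun σ => ?_⟩, ?_⟩
  · rw [actC, hact, twist_zero, one_smul]
    congr 1
    funext k
    by_cases h0 : j k = 0
    · rw [h0, twist_zero, one_mul, gal_scalar]
    · rw [hc0 k h0, map_zero, map_zero, mul_zero]
  · rw [← hz σ, hact, ← Matrix.mulVec_smul, ← Matrix.mulVec_sub, ← Matrix.mulVec_add]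
    congr 1
    funext k
    rw [hy k σ, coboundary, Pi.add_apply, Pi.smul_apply, Pi.sub_apply, smul_eq_mul, map_mul]
    ring
  · rintro x' ⟨hx', y', hy'⟩
    obtain ⟨a, rfl⟩ := hsurj x'
    obtain ⟨b, rfl⟩ := hsurj y'
    congr 1
    funext k
    have ha : ∀ σ, twist p (j k) σ * gal σ (a k) = a k := fun σ => by
      have h1 := hx' σ
      rw [actC, hact, twist_zero, one_smul] at h1
      exact congrFun (hinj h1) k
    by_cases h0 : j k = 0
    · obtain ⟨a', ha'⟩ := (Fermat.Agent.AxSenTate.fixed_padicComplex_iff p (a k)).1 fun σ => by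
        have h2 := ha σ
        rw [h0, twist_zero, one_mul, gal_apply] at h2
        exact h2
      rw [← ha']
      congr 1
      refine logChi_coeff_unique (y := b k) (y' := y k) fun σ => ?_
      have h1 := hy' σ
      rw [hact, ← hz σ, ← Matrix.mulVec_smul, ← Matrix.mulVec_sub, ← Matrix.mulVec_add] at h1
      have h2 := congrFun (hinj h1) k
      rw [hy k σ, Pi.add_apply, Pi.smul_apply, Pi.sub_apply, smul_eq_mul, ← ha', h0, twist_zero,
        one_mul, map_mul, coboundary_zero] at h2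
      rw [coboundary_zero, coboundary_zero, map_mul, map_mul]
      linear_combination -h2
    · rw [hc0 k h0, map_zero, eq_zero_of_invariant h0 ha]

end FA.DRCoh
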