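import Fermat.Agent.DeRhamCohomology.Twist

/-!
# The cohomology of `B_dR⁺ ⊗ V` and of `B_dR ⊗ V` in degree one

For a de Rham representation every class is the cup product of `log χ` with a unique invariant, so
`H¹ (B_dR ⊗ V)` is the space of periods and `H¹ (B_dR⁺ ⊗ V)` its zeroth step.
-/

set_option autoImplicit false
set_option linter.unusedSectionVars false

noncomputable section

open Finset FA.TateSen FA.BDR FA.Sen FA.PadicHodge FA.BDRCoh
open scoped Matrix

namespace FA.DRCoh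

variable {p : ℕ} [hp : Fact p.Prime] {d : Type} [Fintype d] [DecidableEq d]

local notation "Cp" => ℂ_[p]
local notation "G" => PadicAlgCl p ≃ₐ[ℚ_[p]] PadicAlgCl p
local notation "ι" => algebraMap (BPlus p) (BField p)

/-- The semilinear action of a matrix function. -/
def actP (A : G → Matrix d d (BPlus p)) (σ : G) (x : d → BPlus p) : d → BPlus p :=
  A σ *ᵥ fun i => σ • x i

variable (p) in
/-- A continuous cocycle with values in `B_dR⁺ ⊗ V`. -/
structure IsLatCocycle (A : (PadicAlgCl p ≃ₐ[ℚ_[p]] PadicAlgCl p) → Matrix d d (BPlus p))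
    (f : (PadicAlgCl p ≃ₐ[ℚ_[p]] PadicAlgCl p) → d → BPlus p) : Prop where
  cont : ∀ i, ContBPlus p fun σ => f σ i
  cocycle : ∀ σ τ, f (σ * τ) = f σ + actP A σ (f τ)

theorem IsLattice.actP_mulVec {A : G → Matrix d d (BPlus p)} {U : (Matrix d d (BPlus p))ˣ}
    {j : d → ℤ} (h : IsLattice p A U j) (σ : G) (z : d → BPlus p) :
    actP A σ ((U : Matrix d d (BPlus p)) *ᵥ z) =
      (U : Matrix d d (BPlus p)) *ᵥ fun k => chiP p (j k) σ * σ • z k := by
  have e : (fun i => σ • ((U : Matrix d d (BPlus p)) *ᵥ z) i) =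
      (U : Matrix d d (BPlus p)).map (σ • ·) *ᵥ fun i => σ • z i :=
    funext fun i => RingHom.map_mulVec (bplusGal σ) (U : Matrix d d (BPlus p)) z i
  rw [actP, e, Matrix.mulVec_mulVec, h σ, ← Matrix.mulVec_mulVec]
  congr 1
  funext k
  rw [Matrix.mulVec_diagonal]

theorem mulVec_inv_cancel (U : (Matrix d d (BPlus p))ˣ) (x : d → BPlus p) :
    (U : Matrix d d (BPlus p)) *ᵥ ((↑U⁻¹ : Matrix d d (BPlus p)) *ᵥ x) = x := by
  rw [Matrix.mulVec_mulVec, Units.mul_inv, Matrix.one_mulVec]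

theorem mulVec_left_injective (U : (Matrix d d (BPlus p))ˣ) {x y : d → BPlus p}
    (h : (U : Matrix d d (BPlus p)) *ᵥ x = (U : Matrix d d (BPlus p)) *ᵥ y) : x = y := by
  have h1 := congrArg ((↑U⁻¹ : Matrix d d (BPlus p)) *ᵥ ·) h
  simpa only [Matrix.mulVec_mulVec, Units.inv_mul, Matrix.one_mulVec] using h1

/-- **The invariants in a lattice.** -/
theorem IsLattice.exists_coeff {A : G → Matrix d d (BPlus p)} {U : (Matrix d d (BPlus p))ˣ}
    {j : d → ℤ} (h : IsLattice p A U j) {x : d → BPlus p} (hx : ∀ σ, actP A σ x = x) :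
    ∃ c : d → ℚ_[p], x = (U : Matrix d d (BPlus p)) *ᵥ fun k => qpHom p (c k) * perT p (j k) := by
  obtain ⟨z, rfl⟩ : ∃ z, (U : Matrix d d (BPlus p)) *ᵥ z = x := ⟨_, mulVec_inv_cancel U x⟩
  have hz : ∀ σ k, chiP p (j k) σ * σ • z k = z k := fun σ k => by
    have h1 := hx σ
    rw [h.actP_mulVec] at h1
    exact congrFun (mulVec_left_injective U h1) k
  choose c hc using fun k => eq_perT_of_invariant fun σ => hz σ k
  exact ⟨c, congrArg _ (funext hc)⟩

/-- **Every class is `x log χ`.** -/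
theorem IsLattice.exists_log_add {A : G → Matrix d d (BPlus p)} {U : (Matrix d d (BPlus p))ˣ}
    {j : d → ℤ} (h : IsLattice p A U j) {f : G → d → BPlus p} (hf : IsLatCocycle p A f) :
    ∃ x y : d → BPlus p, (∀ σ, actP A σ x = x) ∧
      ∀ σ, f σ = qpHom p (logChi p σ) • x + (actP A σ y - y) := by
  set z : G → d → BPlus p := fun σ => (↑U⁻¹ : Matrix d d (BPlus p)) *ᵥ f σ
  have hz : ∀ σ, (U : Matrix d d (BPlus p)) *ᵥ z σ = f σ := fun σ => mulVec_inv_cancel U _
  have hzc : ∀ σ τ, z (σ * τ) = z σ + fun k => chiP p (j k) σ * σ • z τ k := fun σ τ =>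
    mulVec_left_injective U (by
      rw [Matrix.mulVec_add, hz, hz, ← h.actP_mulVec, hz, hf.cocycle])
  have hk : ∀ k, IsTwCocycle p (j k) fun σ => z σ k := fun k =>
    ⟨ContBPlus.sum univ fun i _ => (ContBPlus.const _).mul (hf.cont i),
      fun σ τ => congrFun (hzc σ τ) k⟩
  choose c y hy using fun k => exists_log_add_twist (hk k)
  refine ⟨(U : Matrix d d (BPlus p)) *ᵥ fun k => qpHom p (c k) * perT p (j k),
    (U : Matrix d d (BPlus p)) *ᵥ y, fun σ => ?_, fun σ => ?_⟩
  · rw [h.actP_mulVec]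
    congr 1
    funext k
    rw [smul_mul', smul_qpHom, mul_left_comm, smul_perT]
  · rw [← hz σ, h.actP_mulVec, ← Matrix.mulVec_smul, ← Matrix.mulVec_sub, ← Matrix.mulVec_add]
    congr 1
    funext k
    rw [Pi.add_apply, Pi.smul_apply, Pi.sub_apply, smul_eq_mul, hy k σ, map_mul]
    ring

/-- **The invariant is unique.** -/
theorem IsLattice.eq_zero_of_coboundary {A : G → Matrix d d (BPlus p)}
    {U : (Matrix d d (BPlus p))ˣ} {j : d → ℤ} (h : IsLattice p A U j) {x y : d → BPlus p}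
    (hx : ∀ σ, actP A σ x = x) (hy : ∀ σ, qpHom p (logChi p σ) • x = actP A σ y - y) : x = 0 := by
  obtain ⟨c, rfl⟩ := h.exists_coeff hx
  obtain ⟨z, rfl⟩ : ∃ z, (U : Matrix d d (BPlus p)) *ᵥ z = y := ⟨_, mulVec_inv_cancel U y⟩
  have h0 : ∀ k, qpHom p (c k) * perT p (j k) = 0 := fun k =>
    log_coeff_eq_zero (y := z k) fun σ => by
      have h1 := hy σ
      rw [h.actP_mulVec, ← Matrix.mulVec_smul, ← Matrix.mulVec_sub] at h1
      have h2 := congrFun (mulVec_left_injective U h1) k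
      rw [Pi.smul_apply, Pi.sub_apply, smul_eq_mul] at h2
      rw [map_mul, ← h2]
      ring
  rw [show (fun k => qpHom p (c k) * perT p (j k)) = 0 from funext h0, Matrix.mulVec_zero]

/-- Every element has a bounded pole. -/
theorem exists_pole_bound (z : BField p) :
    ∃ m : ℕ, ∀ M, m ≤ M → ∃ b : BPlus p, z = ι b * tB p ^ (-(M : ℤ)) := by
  rcases eq_or_ne z 0 with rfl | hz
  · exact ⟨0, fun M _ => ⟨0, by rw [map_zero, zero_mul]⟩⟩
  obtain ⟨k, m, v, hv⟩ := exists_mul_pow_eq hz
  refine ⟨k, fun M hM => ?_⟩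
  exact (inFilB_of_eq hv).mono (by omega)

theorem exists_pole_bound_vec (z : d → BField p) :
    ∃ m : ℕ, ∀ M, m ≤ M → ∃ b : d → BPlus p, z = fun i => ι (b i) * tB p ^ (-(M : ℤ)) := by
  choose m hm using fun i => exists_pole_bound (z i)
  refine ⟨univ.sup m, fun M hM => ?_⟩
  choose b hb using fun i => hm i M ((le_sup (mem_univ i)).trans hM)
  exact ⟨b, funext hb⟩

/-- The action on multiples of a power of the period. -/
theorem actB_mul_tB (ρ : G → Matrix d d ℚ_[p]) (σ : G) (b : d → BPlus p) (m : ℤ) :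
    actB ρ σ (fun i => ι (b i) * tB p ^ m) =
      fun i => ι (actP (fun τ => chiP p m τ • plusRep ρ τ) σ b i) * tB p ^ m := by
  funext i
  simp only [actB, actP, Matrix.mulVec, dotProduct, Matrix.map_apply, Matrix.smul_apply, plusRep,
    smul_eq_mul, map_sum, sum_mul, smul_mul', smul_algebraMap_bfield, smul_tB_zpow', map_mul,
    qpB, RingHom.comp_apply]
  exact sum_congr rfl fun k _ => by ring

theorem mul_tB_injective {b b' : d → BPlus p} {m : ℤ}
    (h : (fun i => ι (b i) * tB p ^ m) = fun i => ι (b' i) * tB p ^ m) : b = b' :=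
  funext fun i => iota_injective (mul_right_cancel₀ (zpow_ne_zero m tB_ne_zero) (congrFun h i))

variable (p) in
/-- A continuous cocycle with values in `B_dR ⊗ V`: its values have a bounded pole. -/
structure IsDRCocycle (ρ : (PadicAlgCl p ≃ₐ[ℚ_[p]] PadicAlgCl p) → Matrix d d ℚ_[p])
    (f : (PadicAlgCl p ≃ₐ[ℚ_[p]] PadicAlgCl p) → d → BField p) : Prop where
  cont : ∃ (M : ℕ) (g : (PadicAlgCl p ≃ₐ[ℚ_[p]] PadicAlgCl p) → d → BPlus p),
    (∀ i, ContBPlus p fun σ => g σ i) ∧
      ∀ σ, f σ = fun i => algebraMap (BPlus p) (BField p) (g σ i) * tB p ^ (-(M : ℤ))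
  cocycle : ∀ σ τ, f (σ * τ) = f σ + actB ρ σ (f τ)

/-- The cup product of an invariant with `log χ` is a cocycle. -/
theorem isDRCocycle_logChi {ρ : G → Matrix d d ℚ_[p]} {x : d → BField p} (hx : x ∈ dR ρ) :
    IsDRCocycle p ρ fun σ => qpB p (logChi p σ) • x := by
  obtain ⟨m, hm⟩ := exists_pole_bound_vec x
  obtain ⟨b, hb⟩ := hm m le_rfl
  refine ⟨⟨m, fun σ i => qpHom p (logChi p σ) * b i, fun i =>
    (contBPlus_qpHom continuous_logChi).mul (ContBPlus.const (b i)), fun σ => funext fun i => ?_⟩,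
    fun σ τ => ?_⟩
  · rw [hb, Pi.smul_apply, smul_eq_mul, map_mul, qpB, RingHom.comp_apply, mul_assoc]
  · rw [actB_smul, smul_qpB, hx σ, logChi_mul, map_add, add_smul]

/-- **`H¹ (B_dR ⊗ V)` is the space of periods**: existence. -/
theorem exists_log_add_dR {ρ : G → Matrix d d ℚ_[p]} (hρ : IsDeRham ρ) {f : G → d → BField p}
    (hf : IsDRCocycle p ρ f) :
    ∃ x ∈ dR ρ, ∃ y, ∀ σ, f σ = qpB p (logChi p σ) • x + (actB ρ σ y - y) := by
  obtain ⟨U, j, hU⟩ := exists_lattice hρ
  obtain ⟨M, g, hg, hfg⟩ := hf.cont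
  obtain ⟨x, y, hx, hy⟩ := (hU.scale (-(M : ℤ))).exists_log_add (f := g) ⟨hg, fun σ τ =>
    mul_tB_injective (m := -(M : ℤ)) (by
      rw [← hfg, hf.cocycle, hfg σ, hfg τ, actB_mul_tB]
      funext i
      simp only [Pi.add_apply, map_add, add_mul])⟩
  refine ⟨fun i => ι (x i) * tB p ^ (-(M : ℤ)), fun σ => ?_,
    fun i => ι (y i) * tB p ^ (-(M : ℤ)), fun σ => ?_⟩
  · rw [actB_mul_tB, hx σ]
  · rw [hfg σ, hy σ, actB_mul_tB]
    funext i
    simp only [Pi.add_apply, Pi.sub_apply, Pi.smul_apply, smul_eq_mul, map_add, map_sub, map_mul,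
      qpB, RingHom.comp_apply]
    ring

/-- **`H¹ (B_dR ⊗ V)` is the space of periods**: uniqueness. -/
theorem eq_zero_of_coboundary_dR {ρ : G → Matrix d d ℚ_[p]} (hρ : IsDeRham ρ)
    {x y : d → BField p} (hx : x ∈ dR ρ)
    (hy : ∀ σ, qpB p (logChi p σ) • x = actB ρ σ y - y) : x = 0 := by
  obtain ⟨U, j, hU⟩ := exists_lattice hρ
  obtain ⟨m, hm⟩ := exists_pole_bound_vec x
  obtain ⟨m', hm'⟩ := exists_pole_bound_vec y
  obtain ⟨a, rfl⟩ := hm (m + m') (Nat.le_add_right _ _)
  obtain ⟨b, rfl⟩ := hm' (m + m') (Nat.le_add_left _ _)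
  have h0 := (hU.scale (-((m + m' : ℕ) : ℤ))).eq_zero_of_coboundary (x := a) (y := b)
    (fun σ => mul_tB_injective (m := -((m + m' : ℕ) : ℤ)) (by rw [← actB_mul_tB]; exact hx σ))
    fun σ => mul_tB_injective (m := -((m + m' : ℕ) : ℤ)) (by
      have h1 := hy σ
      rw [actB_mul_tB] at h1
      funext i
      have h2 := congrFun h1 i
      simp only [Pi.sub_apply, Pi.smul_apply, smul_eq_mul, map_sub, map_mul, qpB,
        RingHom.comp_apply] at h2 ⊢
      linear_combination h2)
  funext i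
  rw [h0, Pi.zero_apply, map_zero, zero_mul]
  rfl

/-- The step `m` of the filtration on the periods. -/
def filDR (ρ : G → Matrix d d ℚ_[p]) (m : ℤ) : Submodule ℚ_[p] (d → BField p) where
  carrier := {x | x ∈ dR ρ ∧ ∀ i, InFilB p m (x i)}
  add_mem' := fun {x y} hx hy => ⟨add_mem hx.1 hy.1, fun i => by
    obtain ⟨a, ha⟩ := hx.2 i
    obtain ⟨b, hb⟩ := hy.2 i
    exact ⟨a + b, by rw [Pi.add_apply, ha, hb, map_add, add_mul]⟩⟩
  zero_mem' := ⟨zero_mem _, fun _ => ⟨0, by rw [map_zero, zero_mul]; rfl⟩⟩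
  smul_mem' := fun c {x} hx => ⟨(dR ρ).smul_mem c hx.1, fun i => by
    obtain ⟨a, ha⟩ := hx.2 i
    exact ⟨qpHom p c * a, by rw [Pi.smul_apply, qp_smul_def, ha, map_mul, qpB, RingHom.comp_apply,
      mul_assoc]⟩⟩

/-- **The dimensions of the steps of the filtration** are read on the lattice. -/
theorem finrank_filDR {ρ : G → Matrix d d ℚ_[p]} {U : (Matrix d d (BPlus p))ˣ} {j : d → ℤ}
    (hU : IsLattice p (plusRep ρ) U j) (m : ℤ) :
    FiniteDimensional ℚ_[p] (filDR ρ m) ∧
      Module.finrank ℚ_[p] (filDR ρ m) = (univ.filter fun k => j k ≤ -m).card := by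
  classical
  set X : Matrix d d (BField p) := (U : Matrix d d (BPlus p)).map ι *
    Matrix.diagonal fun k => tB p ^ (-j k) with hX
  let v : {k // k ∈ univ.filter fun k => j k ≤ -m} → d → BField p := fun k => X.col k.1
  have hspan : filDR ρ m = Submodule.span ℚ_[p] (Set.range v) := by
    refine le_antisymm (fun x hx => ?_) (Submodule.span_le.2 ?_)
    · choose a ha using hx.2
      obtain rfl : x = fun i => ι (a i) * tB p ^ m := funext ha
      obtain ⟨c, hc⟩ := (hU.scale m).exists_coeff (x := a) fun σ =>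
        mul_tB_injective (m := m) (by rw [← actB_mul_tB]; exact hx.1 σ)
      have e : (fun i => ι (a i) * tB p ^ m) = ∑ k, c k.1 • v k := by
        rw [univ_eq_attach, Finset.sum_attach (univ.filter fun k => j k ≤ -m)
          (fun k => c k • X.col k), sum_filter]
        funext i
        rw [Finset.sum_apply, hc]
        simp only [Matrix.mulVec, dotProduct, map_sum, sum_mul]
        refine sum_congr rfl fun k _ => ?_
        split_ifs with hk
        · rw [perT, if_pos (by omega), Pi.smul_apply, qp_smul_def, Matrix.col_apply, hX,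
            Matrix.mul_diagonal, Matrix.map_apply, map_mul, map_mul, map_pow, ← zpow_natCast,
            Int.toNat_of_nonneg (by omega), show ι (tPeriod p) = tB p from rfl, mul_assoc,
            mul_assoc, ← zpow_add₀ tB_ne_zero, show -(j k + m) + m = -j k by ring]
          simp only [qpB, RingHom.comp_apply]
          ring
        · rw [perT, if_neg (by omega), mul_zero, mul_zero, map_zero, zero_mul, Pi.zero_apply]
      rw [e]
      exact sum_mem fun k _ => Submodule.smul_mem _ _ (Submodule.subset_span ⟨k, rfl⟩)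
    · rintro _ ⟨⟨k, hk⟩, rfl⟩
      refine ⟨fun σ => funext fun i => congrFun (congrFun (hU.smul_basis σ) i) k, fun i => ?_⟩
      have hk' := (mem_filter.1 hk).2
      exact InFilB.mono ⟨(U : Matrix d d (BPlus p)) i k, by
        simp only [v, hX, Matrix.col_apply, Matrix.mul_diagonal, Matrix.map_apply]⟩
        (show m ≤ -j k by omega)
  have hXu : IsUnit X :=
    (U.isUnit.map (RingHom.mapMatrix (algebraMap (BPlus p) (BField p)))).mul
      (Matrix.isUnit_diagonal.2 (Pi.isUnit_iff.2 fun k =>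
        (zpow_ne_zero _ tB_ne_zero).isUnit))
  have hli : LinearIndependent ℚ_[p] v :=
    ((Matrix.linearIndependent_cols_iff_isUnit.2 hXu).restrict_scalars (by
      have := (qpB p).injective
      intro a b hab
      simpa [qp_smul_def] using this (by simpa [qp_smul_def] using hab))).comp _
      Subtype.val_injective
  rw [hspan]
  exact ⟨FiniteDimensional.span_of_finite _ (Set.finite_range v),
    by rw [finrank_span_eq_card hli, Fintype.card_coe]⟩

end FA.DRCoh
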