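import Fermat.Agent.BDRCohomology.Filtration

/-!
# The lattice of a de Rham representation

For a de Rham representation `B_dR⁺ ⊗ V` is a sum of twists `t ^ j B_dR⁺`: some basis of it is
multiplied by `χ(σ) ^ j` under `σ`. The steps of the filtration on the periods are then visible.
-/

set_option autoImplicit false
set_option linter.unusedSectionVars false

noncomputable section

open Finset FA.TateSen FA.BDR FA.Sen FA.PadicHodge FA.PadicDescent FA.BDRCoh
open scoped Matrix

namespace FA.DRCoh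

variable {p : ℕ} [hp : Fact p.Prime] {d : Type} [Fintype d] [DecidableEq d]

local notation "Cp" => ℂ_[p]
local notation "G" => PadicAlgCl p ≃ₐ[ℚ_[p]] PadicAlgCl p
local notation "ι" => algebraMap (BPlus p) (BField p)

variable (p) in
/-- The power of the cyclotomic character in `B_dR⁺`. -/
def chiP (m : ℤ) (σ : PadicAlgCl p ≃ₐ[ℚ_[p]] PadicAlgCl p) : BPlus p :=
  qpHom p (((chi p σ : ℤ_[p]) : ℚ_[p]) ^ m)

theorem chiP_add (a b : ℤ) (σ : G) : chiP p (a + b) σ = chiP p a σ * chiP p b σ := by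
  rw [chiP, chiP, chiP, ← map_mul, zpow_add₀ (chi_ne_zero σ)]

theorem chiP_zero (σ : G) : chiP p 0 σ = 1 := by rw [chiP, zpow_zero, map_one]

theorem smul_chiP (m : ℤ) (σ τ : G) : σ • chiP p m τ = chiP p m τ := smul_qpHom σ _

theorem thetaPlus_chiP (m : ℤ) (σ : G) : thetaPlus p (chiP p m σ) = twist p m σ :=
  thetaPlus_qpHom _

theorem chiP_natCast (n : ℕ) (σ : G) :
    chiP p n σ = qpHom p (((chi p σ : ℤ_[p]) : ℚ_[p]) ^ n) := by rw [chiP, zpow_natCast]

theorem smul_tB_zpow' (σ : G) (m : ℤ) : σ • tB p ^ m = ι (chiP p m σ) * tB p ^ m :=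
  smul_tB_zpow σ m

theorem contBPlus_chiP (m : ℤ) : ContBPlus p (chiP p m) := by
  refine contBPlus_qpHom ?_
  have h1 : Continuous fun σ : G => (chi p σ : ℤ_[p]) := Units.continuous_val.comp continuous_chi
  have h2 : Continuous fun σ : G => ((chi p σ : ℤ_[p]) : ℚ_[p]) := continuous_subtype_val.comp h1
  exact h2.zpow₀ _ fun σ => Or.inl (chi_ne_zero σ)

variable (p) in
/-- The semilinear action given by `A` has in the basis `U` the diagonal `χ ^ j`. -/
def IsLattice (A : (PadicAlgCl p ≃ₐ[ℚ_[p]] PadicAlgCl p) → Matrix d d (BPlus p))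
    (U : (Matrix d d (BPlus p))ˣ) (j : d → ℤ) : Prop :=
  ∀ σ, A σ * (U : Matrix d d (BPlus p)).map (σ • ·) =
    (U : Matrix d d (BPlus p)) * Matrix.diagonal fun k => chiP p (j k) σ

theorem IsLattice.scale {A : G → Matrix d d (BPlus p)} {U : (Matrix d d (BPlus p))ˣ} {j : d → ℤ}
    (h : IsLattice p A U j) (m : ℤ) :
    IsLattice p (fun σ => chiP p m σ • A σ) U fun k => j k + m := fun σ => by
  rw [Matrix.smul_mul, h σ, ← Matrix.mul_smul, ← Matrix.diagonal_smul]
  congr 2
  funext k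
  rw [Pi.smul_apply, smul_eq_mul, chiP_add, mul_comm]

/-- The matrices of `ρ` in `B_dR⁺`. -/
def plusRep (ρ : G → Matrix d d ℚ_[p]) (σ : G) : Matrix d d (BPlus p) := (ρ σ).map (qpHom p)

theorem map_plusRep (ρ : G → Matrix d d ℚ_[p]) (σ : G) :
    (plusRep ρ σ).map ι = (ρ σ).map (qpB p) := by
  rw [plusRep, Matrix.map_map]
  rfl

/-- Coordinates with respect to the period. -/
theorem exists_tB_coord {N n : ℕ} {x : BField p} {b : BPlus p}
    (h : x * ι (piMu p ^ N) = ι (b * piMu p ^ n)) :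
    ∃ b' : BPlus p, x = ι b' * tB p ^ ((n : ℤ) - N) ∧ thetaPlus p b' = thetaPlus p b := by
  obtain ⟨u, hu, hθ⟩ := exists_tPeriod_eq (p := p)
  have hpi : piMu p = tPeriod p * (↑u⁻¹ : BPlus p) := by rw [hu, Units.mul_inv_cancel_right]
  refine ⟨b * (↑u⁻¹ : BPlus p) ^ n * (u : BPlus p) ^ N, ?_, ?_⟩
  · rw [zpow_sub₀ tB_ne_zero, zpow_natCast, zpow_natCast, mul_div_assoc',
      eq_div_iff (pow_ne_zero _ tB_ne_zero), tB, ← map_pow, ← map_pow, ← map_mul]
    have h2 := congrArg (fun z => z * ι ((u : BPlus p) ^ N)) h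
    simp only [mul_assoc, ← map_mul] at h2
    rw [hpi, mul_pow, mul_pow, mul_assoc (tPeriod p ^ N), ← mul_pow (↑u⁻¹ : BPlus p),
      Units.inv_mul, one_pow, mul_one] at h2
    rw [h2]
    congr 1
    ring
  · rw [map_mul, map_mul, map_pow, map_pow, map_units_inv, hθ, inv_one, one_pow, one_pow, mul_one,
      mul_one]

/-- One step of the count of the leading terms. -/
theorem finrank_filD_le_range (ρ : G → Matrix d d ℚ_[p]) (N n : ℕ) :
    Module.finrank ℚ_[p] (filD ρ N n) ≤
      Module.finrank ℚ_[p] (LinearMap.range (lead ρ N n)) +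
        Module.finrank ℚ_[p] (filD ρ N (n + 1)) := by
  have := filD_finite ρ N n
  have := filD_finite ρ N (n + 1)
  rw [← LinearMap.finrank_range_add_finrank_ker (lead ρ N n)]
  refine Nat.add_le_add_left ?_ _
  rw [← Submodule.finrank_map_subtype_eq (filD ρ N n) (LinearMap.ker (lead ρ N n))]
  refine Submodule.finrank_mono ?_
  rintro _ ⟨x, hx, rfl⟩
  refine ⟨x.2.1, fun i => ?_⟩
  obtain ⟨a, ha⟩ := piMu_dvd_iff.2
    (congrFun (congrArg Subtype.val (LinearMap.mem_ker.1 hx)) i :
      thetaPlus p (coord x i) = 0)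
  refine ⟨a, ?_⟩
  rw [Submodule.subtype_apply, coord_spec, ha, pow_succ']
  ring_nf

/-- Bases of subspaces of different weight spaces are independent together. -/
theorem exists_independent_subfamily (U : G → Matrix d d Cp) {M : ℕ} (w : Fin M → ℤ)
    (hw : Function.Injective w) (R : ∀ n, Submodule ℚ_[p] (dHT U (w n))) :
    ∃ (J : Type) (_ : Fintype J) (g : J → Fin M) (v : J → d → Cp),
      Fintype.card J = ∑ n, Module.finrank ℚ_[p] (R n) ∧
        (∀ a, ∃ h : v a ∈ dHT U (w (g a)), (⟨v a, h⟩ : dHT U (w (g a))) ∈ R (g a)) ∧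
        LinearIndependent Cp v := by
  classical
  have hfree : ∀ n, Module.Free ℚ_[p] (R n) := fun n => Module.Free.of_divisionRing ℚ_[p] (R n)
  refine ⟨(n : Fin M) × Fin (Module.finrank ℚ_[p] (R n)), inferInstance, fun a => a.1,
    fun a => ((Module.finBasis ℚ_[p] (R a.1) a.2 : dHT U (w a.1)) : d → Cp), ?_,
    fun a => ⟨_, (Module.finBasis ℚ_[p] (R a.1) a.2).2⟩, ?_⟩
  · rw [Fintype.card_sigma]
    exact sum_congr rfl fun n _ => Fintype.card_fin _
  refine linearIndependent_dHT (fun a => w a.1) _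
    (fun a => (Module.finBasis ℚ_[p] (R a.1) a.2 : dHT U (w a.1)).2) fun u α h0 => ?_
  rintro ⟨n, k⟩ hn
  have hz : ∑ k', α ⟨n, k'⟩ • Module.finBasis ℚ_[p] (R n) k' = 0 := by
    refine Subtype.ext (Subtype.ext ?_)
    rw [AddSubmonoidClass.coe_finsetSum, AddSubmonoidClass.coe_finsetSum, ZeroMemClass.coe_zero,
      ZeroMemClass.coe_zero, ← h0, sum_filter, Fintype.sum_sigma, Fintype.sum_eq_single n]
    · exact sum_congr rfl fun k' _ => by rw [if_pos hn]; rfl
    · intro n' hn'
      exact sum_eq_zero fun k' _ => if_neg fun h' => hn' (hw (h'.trans hn.symm))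
  generalize Module.finBasis ℚ_[p] (R n) = B at hz
  exact Fintype.linearIndependent_iffₛ.1 B.linearIndependent (fun k' => α ⟨n, k'⟩) (fun _ => 0)
    (hz.trans (sum_eq_zero fun k' _ => zero_smul _ _).symm) k

/-- **The lattice decomposition.** -/
theorem exists_lattice {ρ : G → Matrix d d ℚ_[p]} (h : IsDeRham ρ) :
    ∃ (U : (Matrix d d (BPlus p))ˣ) (j : d → ℤ), IsLattice p (plusRep ρ) U j := by
  classical
  obtain ⟨N, hN⟩ := exists_filD_top ρ
  obtain ⟨M, hM⟩ := exists_filD_bot ρ N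
  have hcount : ∀ m, Module.finrank ℚ_[p] (filD ρ N 0) ≤
      ∑ n ∈ range m, Module.finrank ℚ_[p] (LinearMap.range (lead ρ N n)) +
        Module.finrank ℚ_[p] (filD ρ N m) := fun m => by
    induction m with
    | zero => rw [range_zero, sum_empty, zero_add]
    | succ m ih =>
      rw [sum_range_succ, add_assoc]
      exact ih.trans (Nat.add_le_add_left (finrank_filD_le_range ρ N m) _)
  obtain ⟨J, hJ, g, v, hsum, hv, hli⟩ := exists_independent_subfamily (cpRep ρ)
    (fun n : Fin M => ((n : ℕ) : ℤ) - N) (fun a a' ha => Fin.ext (by simp only at ha; omega))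
    fun n => LinearMap.range (lead ρ N n)
  choose hv' x hx using hv
  choose b hb hθb using fun (a : J) (i : d) => exists_tB_coord (coord_spec (x a) i)
  let w : J → ℤ := fun a => ((g a : ℕ) : ℤ) - N
  have hvb : v = fun a i => thetaPlus p (b a i) := funext fun a => funext fun i => by
    rw [hθb a i]
    exact congrFun (congrArg Subtype.val (hx a)).symm i
  rw [hvb] at hli
  have hfin : Fintype.card d = Module.finrank ℚ_[p] (filD ρ N 0) :=
    ((isDeRham_iff_finrank ρ).1 h).symm.trans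
      (LinearEquiv.ofEq _ _ hN.symm).finrank_eq
  have hcard : Fintype.card d = Fintype.card J := by
    refine le_antisymm ?_ (hli.fintype_card_le_finrank.trans_eq (Module.finrank_pi Cp))
    rw [hsum, hfin]
    refine (hcount M).trans_eq ?_
    rw [(LinearEquiv.ofEq _ _ hM).finrank_eq, finrank_bot, add_zero, sum_range]
  let e : d ≃ J := Fintype.equivOfCardEq hcard
  let U₀ : Matrix d d (BPlus p) := Matrix.of fun i k => b (e k) i
  obtain ⟨U, hU⟩ : IsUnit U₀ := by
    have h1 : IsUnit ((thetaPlus p).mapMatrix U₀) :=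
      Matrix.linearIndependent_cols_iff_isUnit.1
        (show LinearIndependent Cp ((thetaPlus p).mapMatrix U₀).col from hli.comp e e.injective)
    rw [Matrix.isUnit_iff_isUnit_det, ← RingHom.map_det] at h1
    rw [Matrix.isUnit_iff_isUnit_det, isUnit_iff_thetaPlus]
    exact h1.ne_zero
  refine ⟨U, fun k => -w (e k), fun σ => Matrix.ext fun i k => ?_⟩
  have h1 := congrFun ((x (e k)).2.1 σ) i
  simp only [actB, Matrix.mulVec, dotProduct, Matrix.map_apply, hb (e k), smul_mul',
    smul_algebraMap_bfield, smul_tB_zpow'] at h1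
  have h2 : ∑ l, qpHom p (ρ σ i l) * σ • b (e k) l * chiP p (w (e k)) σ = b (e k) i := by
    refine iota_injective (mul_right_cancel₀ (zpow_ne_zero (w (e k)) tB_ne_zero) ?_)
    rw [map_sum, sum_mul]
    refine Eq.trans (sum_congr rfl fun l _ => ?_) h1
    rw [map_mul, map_mul, qpB, RingHom.comp_apply]
    ring
  rw [hU, Matrix.mul_diagonal, Matrix.mul_apply]
  show ∑ l, qpHom p (ρ σ i l) * σ • b (e k) l = b (e k) i * chiP p (-w (e k)) σ
  rw [← h2, sum_mul]
  refine sum_congr rfl fun l _ => ?_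
  rw [mul_assoc _ (chiP p (w (e k)) σ), ← chiP_add, add_neg_cancel, chiP_zero, mul_one]

/-- The de Rham basis of a lattice. -/
theorem IsLattice.smul_basis {ρ : G → Matrix d d ℚ_[p]} {U : (Matrix d d (BPlus p))ˣ}
    {j : d → ℤ} (h : IsLattice p (plusRep ρ) U j) (σ : G) :
    (ρ σ).map (qpB p) * ((U : Matrix d d (BPlus p)).map ι *
      Matrix.diagonal fun k => tB p ^ (-j k)).map (σ • ·) =
      (U : Matrix d d (BPlus p)).map ι * Matrix.diagonal fun k => tB p ^ (-j k) := by
  ext i k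
  have h1 := congrArg ι (congrFun (congrFun (h σ) i) k)
  rw [Matrix.mul_diagonal] at h1
  simp only [Matrix.mul_apply, Matrix.map_apply, map_sum, map_mul, plusRep] at h1
  simp only [Matrix.mul_diagonal, Matrix.map_apply]
  rw [Matrix.mul_apply]
  simp only [Matrix.map_apply, Matrix.mul_diagonal, smul_mul', smul_algebraMap_bfield,
    smul_tB_zpow', qpB, RingHom.comp_apply, ← mul_assoc, ← sum_mul, h1]
  rw [mul_assoc (ι _) (ι (chiP p (j k) σ)), ← map_mul, ← chiP_add, add_neg_cancel, chiP_zero,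
    map_one, mul_one]

/-- **De Rham means that `B_dR⁺ ⊗ V` is a sum of twists of `B_dR⁺`.** -/
theorem isDeRham_iff_lattice (ρ : G → Matrix d d ℚ_[p]) :
    IsDeRham ρ ↔ ∃ (U : (Matrix d d (BPlus p))ˣ) (j : d → ℤ), IsLattice p (plusRep ρ) U j := by
  refine ⟨exists_lattice, fun ⟨U, j, h⟩ => ?_⟩
  obtain ⟨X, hX⟩ : IsUnit ((U : Matrix d d (BPlus p)).map ι *
      Matrix.diagonal fun k => tB p ^ (-j k)) :=
    (U.isUnit.map (RingHom.mapMatrix (algebraMap (BPlus p) (BField p)))).mul
      (Matrix.isUnit_diagonal.2 (Pi.isUnit_iff.2 fun k =>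
        (zpow_ne_zero _ tB_ne_zero).isUnit))
  exact ⟨X, fun σ => by rw [hX]; exact h.smul_basis σ⟩

/-- **Modulo `t` the lattice is a Hodge–Tate basis.** -/
theorem IsLattice.exists_conj {ρ : G → Matrix d d ℚ_[p]} {U : (Matrix d d (BPlus p))ˣ}
    {j : d → ℤ} (h : IsLattice p (plusRep ρ) U j) :
    ∃ P : (Matrix d d Cp)ˣ, (P : Matrix d d Cp) = (U : Matrix d d (BPlus p)).map (thetaPlus p) ∧
      ∀ σ, FA.Sen.conj (cpRep ρ) P σ = Matrix.diagonal fun i => twist p (j i) σ := by
  obtain ⟨P, hP⟩ : IsUnit ((U : Matrix d d (BPlus p)).map (thetaPlus p)) :=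
    U.isUnit.map (thetaPlus p).mapMatrix
  refine ⟨P, hP, fun σ => FA.Sen.conj_eq_iff.2 (Matrix.ext fun i k => ?_)⟩
  rw [hP]
  have h1 := congrArg (thetaPlus p) (congrFun (congrFun (h σ) i) k)
  rw [Matrix.mul_diagonal] at h1
  simp only [Matrix.mul_apply, Matrix.map_apply, map_sum, map_mul, plusRep, thetaPlus_qpHom,
    smul_bplus_def, thetaPlus_bplusGal, thetaPlus_chiP] at h1
  rw [Matrix.mul_diagonal]
  simp only [Matrix.mul_apply, cpRep, Matrix.map_apply, galM_apply]
  exact h1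

end FA.DRCoh
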