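import Fermat.Agent.DeRhamCohomology.Lattice

/-!
# The cohomology of `t ^ j B_dR⁺` for every integer `j`

A cocycle for the action `x ↦ χ ^ j σ x` is a coboundary when `1 ≤ j`, and otherwise the sum of a
coboundary and a multiple of `log χ` times the invariant `t ^ (-j)`.
-/

set_option autoImplicit false
set_option linter.unusedSectionVars false

noncomputable section

open Finset FA.TateSen FA.BDR FA.Sen FA.PadicHodge FA.BDRCoh
open scoped Matrix

namespace FA.DRCoh

variable {p : ℕ} [hp : Fact p.Prime]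

local notation "Cp" => ℂ_[p]
local notation "G" => PadicAlgCl p ≃ₐ[ℚ_[p]] PadicAlgCl p
local notation "ι" => algebraMap (BPlus p) (BField p)

variable (p) in
/-- The invariant of the twist by `j` in `B_dR⁺`. -/
def perT (j : ℤ) : BPlus p := if j ≤ 0 then tPeriod p ^ (-j).toNat else 0

theorem perT_zero : perT p 0 = 1 := by rw [perT, if_pos le_rfl, neg_zero, Int.toNat_zero, pow_zero]

theorem perT_of_pos {j : ℤ} (hj : 1 ≤ j) : perT p j = 0 := if_neg (by omega)

theorem perT_neg_succ (n : ℕ) :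
    perT p (-((n + 1 : ℕ) : ℤ)) = tPeriod p * perT p (-(n : ℤ)) := by
  rw [perT, perT, if_pos (by omega), if_pos (by omega), neg_neg, neg_neg, Int.toNat_natCast,
    Int.toNat_natCast, pow_succ']

theorem smul_perT (j : ℤ) (σ : G) : chiP p j σ * σ • perT p j = perT p j := by
  by_cases hj : j ≤ 0
  · rw [perT, if_pos hj, smul_tPeriod_pow, ← chiP_natCast, ← mul_assoc, ← chiP_add,
      Int.toNat_of_nonneg (by omega), add_neg_cancel, chiP_zero, one_mul]
  · rw [perT, if_neg hj, smul_zero, mul_zero]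

/-- **The invariants of the twist by `j`.** -/
theorem eq_perT_of_invariant {j : ℤ} {y : BPlus p} (hy : ∀ σ : G, chiP p j σ * σ • y = y) :
    ∃ c : ℚ_[p], y = qpHom p c * perT p j := by
  obtain ⟨c, hc⟩ := (bField_invariants (ι y * tB p ^ j)).1 fun σ => by
    rw [smul_mul', smul_algebraMap_bfield, smul_tB_zpow', ← mul_assoc, ← map_mul, mul_comm (σ • y),
      hy σ]
  have h1 : ι y = ι (qpHom p c) * tB p ^ (-j) := by
    rw [show ι (qpHom p c) = ι y * tB p ^ j from hc, mul_assoc, ← zpow_add₀ tB_ne_zero,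
      add_neg_cancel, zpow_zero, mul_one]
  by_cases hj : j ≤ 0
  · refine ⟨c, iota_injective ?_⟩
    rw [h1, perT, if_pos hj, map_mul, map_pow, ← zpow_natCast, Int.toNat_of_nonneg (by omega)]
    rfl
  refine ⟨0, ?_⟩
  rw [map_zero, zero_mul]
  have h2 : y * tPeriod p ^ j.toNat = qpHom p c := by
    refine iota_injective ?_
    rw [map_mul, map_pow, ← zpow_natCast, Int.toNat_of_nonneg (by omega),
      show ι (tPeriod p) = tB p from rfl]
    exact hc.symm
  have h3 := congrArg (thetaPlus p) h2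
  rw [map_mul, map_pow, thetaPlus_tPeriod, zero_pow (by omega), mul_zero, thetaPlus_qpHom,
    eq_comm, map_eq_zero] at h3
  rw [h3, map_zero] at h2
  exact (mul_eq_zero.1 h2).resolve_right (pow_ne_zero _ tPeriod_ne_zero)

theorem qpHom_mul_perT_eq_zero {j : ℤ} (hj : j ≤ 0) {c : ℚ_[p]}
    (h : qpHom p c * perT p j = 0) : c = 0 := by
  rw [perT, if_pos hj] at h
  exact (map_eq_zero_iff _ (qpHom p).injective).1
    ((mul_eq_zero.1 h).resolve_right (pow_ne_zero _ tPeriod_ne_zero))

variable (p) in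
/-- A continuous cocycle for the action twisted by `χ ^ j`. -/
structure IsTwCocycle (j : ℤ) (f : (PadicAlgCl p ≃ₐ[ℚ_[p]] PadicAlgCl p) → BPlus p) : Prop where
  cont : ContBPlus p f
  cocycle : ∀ σ τ, f (σ * τ) = f σ + chiP p j σ * σ • f τ

/-- Positive twists. -/
theorem exists_coboundary_pos {j : ℤ} (hj : 1 ≤ j) {f : G → BPlus p} (hf : IsTwCocycle p j f) :
    ∃ y : BPlus p, ∀ σ, f σ = chiP p j σ * σ • y - y := by
  lift j to ℕ using by omega
  obtain ⟨y, ⟨y', rfl⟩, hy⟩ := exists_coboundary_twisted (k := j) (by omega)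
    (f := fun σ => tPeriod p ^ j * f σ)
    ⟨(ContBPlus.const _).mul hf.cont, fun σ τ => by
      rw [hf.cocycle, smul_mul', smul_tPeriod_pow, ← chiP_natCast]; ring⟩
    fun σ => dvd_mul_right _ _
  refine ⟨y', fun σ => mul_left_cancel₀ (pow_ne_zero j (tPeriod_ne_zero (p := p))) ?_⟩
  have h := hy σ
  rw [smul_mul', smul_tPeriod_pow, ← chiP_natCast] at h
  rw [h]
  ring

/-- Twists that are at most zero. -/
theorem exists_log_add_neg (n : ℕ) : ∀ {f : G → BPlus p}, IsTwCocycle p (-(n : ℤ)) f →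
    ∃ (c : ℚ_[p]) (y : BPlus p), ∀ σ,
      f σ = qpHom p (c * logChi p σ) * perT p (-(n : ℤ)) + (chiP p (-(n : ℤ)) σ * σ • y - y) := by
  induction n with
  | zero =>
    intro f hf
    have h0 : ∀ σ : G, chiP p (-((0 : ℕ) : ℤ)) σ = 1 := fun σ => by
      rw [Nat.cast_zero, neg_zero, chiP_zero]
    obtain ⟨c, y, hy⟩ := exists_logChi_add (f := f)
      ⟨hf.cont, fun σ τ => by rw [hf.cocycle, h0, one_mul]⟩
    refine ⟨c, y, fun σ => ?_⟩
    rw [hy σ, h0, one_mul, Nat.cast_zero, neg_zero, perT_zero, mul_one]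
  | succ n ih =>
    intro f hf
    set j : ℤ := -((n + 1 : ℕ) : ℤ) with hj
    have hjn : j + 1 = -(n : ℤ) := by omega
    obtain ⟨c₀, hc₀⟩ := exists_coboundary (j := j) (by omega)
      (f := fun σ => thetaPlus p (f σ))
      ⟨hf.cont.continuous_thetaPlus, fun σ τ => by
        rw [hf.cocycle, map_add, map_mul, thetaPlus_chiP, smul_bplus_def, thetaPlus_bplusGal]⟩
    obtain ⟨b, rfl⟩ := thetaPlus_surjective c₀
    have hd : ∀ σ : G, ∃ g, f σ - (chiP p j σ * σ • b - b) = tPeriod p * g := fun σ => by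
      show tPeriod p ∣ _
      rw [← pow_one (tPeriod p), tPeriod_pow_dvd_iff, pow_one, piMu_dvd_iff, map_sub, map_sub,
        map_mul, thetaPlus_chiP, smul_bplus_def, thetaPlus_bplusGal, hc₀ σ, coboundary, sub_self]
    choose g hg using hd
    have hg' : IsTwCocycle p (-(n : ℤ)) g := by
      refine ⟨ContBPlus.of_tPeriod_pow_mul 1 ?_, fun σ τ => ?_⟩
      · simp only [pow_one, ← hg]
        exact hf.cont.sub (((contBPlus_chiP j).mul (contBPlus_smul b)).sub (ContBPlus.const b))
      · refine mul_left_cancel₀ (tPeriod_ne_zero (p := p)) ?_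
        have ht : σ • tPeriod p = chiP p 1 σ * tPeriod p := by
          rw [smul_tPeriod, chiP, zpow_one]
        have h1 : σ • (tPeriod p * g τ) = σ • (f τ - (chiP p j τ * τ • b - b)) := by rw [hg τ]
        rw [smul_mul', ht, smul_sub, smul_sub, smul_mul', smul_chiP, ← mul_smul] at h1
        have h2 : chiP p j (σ * τ) = chiP p j σ * chiP p j τ := by
          rw [chiP, chiP, chiP, ← map_mul, ← mul_zpow, map_mul, Units.val_mul, PadicInt.coe_mul]
        rw [← hg, hf.cocycle, mul_add, ← hg, ← hjn, chiP_add]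
        linear_combination (-chiP p j σ) * h1 + (-((σ * τ) • b)) * h2
    obtain ⟨c, y, hy⟩ := ih hg'
    refine ⟨c, b + tPeriod p * y, fun σ => ?_⟩
    have h1 := hg σ
    rw [hy σ, sub_eq_iff_eq_add] at h1
    rw [h1, perT_neg_succ, smul_add, smul_mul', smul_tPeriod, ← hjn, chiP_add,
      show chiP p 1 σ = qpHom p ((chi p σ : ℤ_[p]) : ℚ_[p]) by rw [chiP, zpow_one]]
    ring

/-- **The cohomology of every twist.** -/
theorem exists_log_add_twist {j : ℤ} {f : G → BPlus p} (hf : IsTwCocycle p j f) :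
    ∃ (c : ℚ_[p]) (y : BPlus p), ∀ σ,
      f σ = qpHom p (c * logChi p σ) * perT p j + (chiP p j σ * σ • y - y) := by
  by_cases hj : 1 ≤ j
  · obtain ⟨y, hy⟩ := exists_coboundary_pos hj hf
    exact ⟨0, y, fun σ => by rw [hy σ, zero_mul, map_zero, zero_mul, zero_add]⟩
  obtain ⟨n, rfl⟩ : ∃ n : ℕ, j = -(n : ℤ) := ⟨(-j).toNat, by omega⟩
  exact exists_log_add_neg n hf

/-- **The coefficient is unique.** -/
theorem log_coeff_eq_zero {j : ℤ} {c : ℚ_[p]} {y : BPlus p}
    (h : ∀ σ : G, qpHom p (c * logChi p σ) * perT p j = chiP p j σ * σ • y - y) :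
    qpHom p c * perT p j = 0 := by
  by_cases hj : 1 ≤ j
  · rw [perT_of_pos hj, mul_zero]
  obtain ⟨n, rfl⟩ : ∃ n : ℕ, j = -(n : ℤ) := ⟨(-j).toNat, by omega⟩
  suffices hc : c = 0 by rw [hc, map_zero, zero_mul]
  clear hj
  induction n generalizing y with
  | zero =>
    refine logChi_coeff_unique_bPlus (c' := 0) (y := 0) (y' := y) fun σ => ?_
    have h1 := h σ
    rw [Nat.cast_zero, neg_zero, perT_zero, mul_one, chiP_zero, one_mul] at h1
    rw [h1, smul_zero, sub_zero, add_zero, zero_mul, map_zero, zero_add]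
  | succ n ih =>
    have h0 : thetaPlus p y = 0 :=
      eq_zero_of_invariant (j := -((n + 1 : ℕ) : ℤ)) (by omega) fun σ => by
        have h1 := congrArg (thetaPlus p) (h σ)
        rw [perT_neg_succ, map_mul, map_mul _ (tPeriod p), thetaPlus_tPeriod, zero_mul, mul_zero,
          map_sub, map_mul, thetaPlus_chiP, smul_bplus_def, thetaPlus_bplusGal] at h1
        exact (sub_eq_zero.1 h1.symm)
    obtain ⟨y', rfl⟩ : tPeriod p ∣ y := by
      rw [← pow_one (tPeriod p), tPeriod_pow_dvd_iff, pow_one, piMu_dvd_iff]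
      exact h0
    refine ih (y := y') fun σ => mul_left_cancel₀ (tPeriod_ne_zero (p := p)) ?_
    have h1 := h σ
    rw [perT_neg_succ, smul_mul', smul_tPeriod] at h1
    rw [show -(n : ℤ) = -((n + 1 : ℕ) : ℤ) + 1 by omega, chiP_add,
      show chiP p 1 σ = qpHom p ((chi p σ : ℤ_[p]) : ℚ_[p]) by rw [chiP, zpow_one],
      show -((n + 1 : ℕ) : ℤ) + 1 = -(n : ℤ) by omega]
    linear_combination h1

end FA.DRCoh
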